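import Fermat.Agent.Lib.Frob.A2.H230.Height
import Fermat.Agent.S52.H621.ManinCard

/-!
# Frobenius and the height on odd points (helper230)

* `hh_frob`     : `h (Φ P) = q · h P` on odd points (any finite field, short form, char ≠ 2).
* `hh_frob_sub` : `h (Φ P - P) = ratDeg (maninFun) · h P` on odd points of `y² = x³ + A x + B`
  over `ZMod p`, `p ≠ 2`.
-/

set_option linter.unusedSectionVars false

open WeierstrassCurve Polynomial
open scoped Polynomial.Bivariate WeierstrassCurve.Affine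

namespace Fermat.Agent.Lib.Frob.A2.H230

open Fermat.Agent.Lib.FrobRel.H230 Fermat.Agent.S52.H311 Fermat.Agent.S52.H621

universe u

section General

variable {F : Type u} [Field F] [Fintype F] {W : WeierstrassCurve F} [DecidableEq (KK W)]

lemma frobPt_mem_oddPts {P : (W⁄(KK W)).Point} (hP : P ∈ oddPts W) :
    frobPt W (KK W) P ∈ oddPts W :=
  map_mem_oddPts _ (fun P => frobPt_map W (tau W) P) hP

lemma frobPt_some_exists {L : Type*} [Field L] [Algebra F L] [DecidableEq L] {x y : L}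
    (h : (W⁄L).Nonsingular x y) :
    ∃ h' : (W⁄L).Nonsingular (x ^ Fintype.card F) (y ^ Fintype.card F),
      frobPt W L (Affine.Point.some x y h)
        = Affine.Point.some (x ^ Fintype.card F) (y ^ Fintype.card F) h' :=
  ⟨_, frobPt_some W L h⟩

lemma hh_frob (ha₁ : W.a₁ = 0) (ha₃ : W.a₃ = 0) (h2 : (2 : F) ≠ 0)
    {P : (W⁄(KK W)).Point} (hP : P ∈ oddPts W) :
    hh (frobPt W (KK W) P) = Fintype.card F * hh P := by
  rcases P with _ | ⟨x, y, h⟩
  · have : frobPt W (KK W) (Affine.Point.zero) = 0 := map_zero _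
    rw [this]
    show hh (0 : (W⁄(KK W)).Point) = _ * hh (0 : (W⁄(KK W)).Point)
    rw [hh_zero, mul_zero]
  · obtain ⟨S, hS⟩ := exists_ratFunc_of_mem_oddPts ha₁ ha₃ h2 hP
    obtain ⟨h', e⟩ := frobPt_some_exists h
    rw [e, hh_some_eq h S hS,
      hh_some_eq h' (S ^ Fintype.card F) (by rw [hS, map_pow]), ratDeg_pow]

lemma hh_neg (ha₁ : W.a₁ = 0) (ha₃ : W.a₃ = 0) (h2 : (2 : F) ≠ 0) (hΔ : W.Δ ≠ 0)
    {P : (W⁄(KK W)).Point} (hP : P ∈ oddPts W) : hh (-P) = hh P := by
  have := hh_parallelogram ha₁ ha₃ h2 hΔ (oddPts W).zero_mem hP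
  rw [zero_add, zero_sub, hh_zero] at this
  omega

lemma hh_neg_sub_self (ha₁ : W.a₁ = 0) (ha₃ : W.a₃ = 0) (h2 : (2 : F) ≠ 0) (hΔ : W.Δ ≠ 0)
    {P : (W⁄(KK W)).Point} (hP : P ∈ oddPts W) : hh (-P - P) = 4 * hh P := by
  have := hh_parallelogram ha₁ ha₃ h2 hΔ ((oddPts W).neg_mem hP) hP
  rw [neg_add_cancel, hh_zero, hh_neg ha₁ ha₃ h2 hΔ hP] at this
  omega

end General

section Manin

variable (p : ℕ) [Fact p.Prime] (A B : ZMod p)

lemma maninDen_ne_zero' : maninDen p ≠ 0 := by
  rw [maninDen_eq p 0 0]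
  exact mul_ne_zero (cancelPoly_monic p 0 0).ne_zero (redDen_monic p 0 0).ne_zero

variable {p A B}

lemma equation_short {x y : KK (shortW p A B)}
    (h : ((shortW p A B)⁄(KK (shortW p A B))).Equation x y) :
    y ^ 2 = x ^ 3 + algebraMap (ZMod p) (KK (shortW p A B)) A * x
      + algebraMap (ZMod p) (KK (shortW p A B)) B := by
  rw [Affine.equation_iff] at h
  have h1 : ((shortW p A B)⁄(KK (shortW p A B))).a₁ = 0 := map_zero _
  have h2 : ((shortW p A B)⁄(KK (shortW p A B))).a₂ = 0 := map_zero _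
  have h3 : ((shortW p A B)⁄(KK (shortW p A B))).a₃ = 0 := map_zero _
  have h4 : ((shortW p A B)⁄(KK (shortW p A B))).a₄
      = algebraMap (ZMod p) (KK (shortW p A B)) A := rfl
  have h6 : ((shortW p A B)⁄(KK (shortW p A B))).a₆
      = algebraMap (ZMod p) (KK (shortW p A B)) B := rfl
  rw [h1, h2, h3, h4, h6] at h
  linear_combination h

lemma addX_short (x₁ x₂ l : KK (shortW p A B)) :
    ((shortW p A B)⁄(KK (shortW p A B))).addX x₁ x₂ l = l ^ 2 - x₁ - x₂ := by
  have h1 : ((shortW p A B)⁄(KK (shortW p A B))).a₁ = 0 := map_zero _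
  have h2 : ((shortW p A B)⁄(KK (shortW p A B))).a₂ = 0 := map_zero _
  rw [Affine.addX, h1, h2]
  ring

lemma aeval_cubic (x : KK (shortW p A B)) :
    aeval x (cubic p A B) = x ^ 3 + algebraMap (ZMod p) (KK (shortW p A B)) A * x
      + algebraMap (ZMod p) (KK (shortW p A B)) B := by
  simp [cubic]

lemma aeval_maninDen (x : KK (shortW p A B)) :
    aeval x (maninDen p) = (x ^ p - x) ^ 2 := by
  simp [maninDen]

lemma aeval_maninNum (x : KK (shortW p A B)) :
    aeval x (maninNum p A B) = aeval x (cubic p A B) * (aeval x (cubic p A B) ^ ((p - 1) / 2) + 1) ^ 2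
      - (x ^ p + x) * (x ^ p - x) ^ 2 := by
  simp [maninNum]

/-- The `x`-coordinate of `Φ P - P` is Manin's function of the `x`-coordinate of `P`. -/
lemma manin_x (hp2 : p ≠ 2) {x y : KK (shortW p A B)}
    (heq : ((shortW p A B)⁄(KK (shortW p A B))).Equation x y) (hx : x ^ p ≠ x) :
    ((y ^ p + y) / (x ^ p - x)) ^ 2 - x ^ p - x
      = aeval x (maninNum p A B) / aeval x (maninDen p) := by
  obtain ⟨hm, -, -⟩ := half_spec hp2
  have hy : y ^ p = y * (y ^ 2) ^ ((p - 1) / 2) := by
    have e : y ^ (2 * ((p - 1) / 2) + 1) = y ^ p := congrArg (fun n : ℕ => y ^ n) hm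
    rw [← e, pow_succ, pow_mul]
    ring
  have hd : x ^ p - x ≠ 0 := sub_ne_zero.mpr hx
  rw [aeval_maninNum, aeval_maninDen, aeval_cubic, ← equation_short heq, hy]
  field_simp
  ring

lemma jhat_manin (x : KK (shortW p A B)) (S : RatFunc (ZMod p))
    (hS : x = jhat (shortW p A B) S) :
    jhat (shortW p A B) (aeval S (maninNum p A B) / aeval S (maninDen p))
      = aeval x (maninNum p A B) / aeval x (maninDen p) := by
  rw [map_div₀, hS, Polynomial.aeval_algHom_apply, Polynomial.aeval_algHom_apply]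

variable [DecidableEq (KK (shortW p A B))]

/-- **Manin's count on the odd points**: `h (Φ P - P) = ratDeg (maninFun) · h P`. -/
theorem hh_frob_sub (hp2 : p ≠ 2) (hΔ : (shortW p A B).Δ ≠ 0)
    {P : ((shortW p A B)⁄(KK (shortW p A B))).Point} (hP : P ∈ oddPts (shortW p A B)) :
    hh (frobPt (shortW p A B) (KK (shortW p A B)) P - P)
      = ratDeg (maninFun p A B) * hh P := by
  have ha₁ : (shortW p A B).a₁ = 0 := rfl
  have ha₃ : (shortW p A B).a₃ = 0 := rfl
  have h2 : (2 : ZMod p) ≠ 0 := two_ne_zero_zmod p hp2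
  have hq : Fintype.card (ZMod p) = p := ZMod.card p
  rcases P with _ | ⟨x, y, h⟩
  · have e0 : frobPt (shortW p A B) (KK (shortW p A B)) (Affine.Point.zero) - Affine.Point.zero
        = (0 : ((shortW p A B)⁄(KK (shortW p A B))).Point) := by
      have : (Affine.Point.zero : ((shortW p A B)⁄(KK (shortW p A B))).Point) = 0 := rfl
      rw [this, map_zero, sub_zero]
    rw [e0]
    show hh (0 : ((shortW p A B)⁄(KK (shortW p A B))).Point)
      = _ * hh (0 : ((shortW p A B)⁄(KK (shortW p A B))).Point)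
    rw [hh_zero, mul_zero]
  · obtain ⟨S, hS⟩ := exists_ratFunc_of_mem_oddPts ha₁ ha₃ h2 hP
    obtain ⟨h', e⟩ := frobPt_some_exists h
    by_cases hx : x ^ p = x
    · -- constant `x`-coordinate
      have hS0 : ratDeg S = 0 := by
        have hSp : S ^ p = S := jhat_injective _ (by rw [map_pow, ← hS, hx])
        have h3 := ratDeg_pow S p
        rw [hSp] at h3
        have h4 := (Fact.out : p.Prime).two_le
        by_contra hne
        have : 0 < ratDeg S := Nat.pos_of_ne_zero hne
        nlinarith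
      have hhP : hh (Affine.Point.some x y h) = 0 := by rw [hh_some_eq h S hS, hS0]
      rw [hhP, mul_zero]
      have hxx : x ^ Fintype.card (ZMod p) = x := by rw [hq]; exact hx
      rcases (Affine.Point.X_eq_iff (h₁ := h') (h₂ := h)).mp hxx with e1 | e1
      · rw [e, e1, sub_self]; exact hh_zero
      · rw [e, e1, hh_neg_sub_self ha₁ ha₃ h2 hΔ hP, hhP, mul_zero]
    · -- generic case
      have hxne : x ^ Fintype.card (ZMod p) ≠ x := by rw [hq]; exact hx
      rw [e, sub_eq_add_neg, Affine.Point.neg_some, Affine.Point.add_of_X_ne hxne]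
      rw [hh_some_eq _ (aeval S (maninNum p A B) / aeval S (maninDen p)),
        ratDeg_comp _ _ (maninDen_ne_zero' p) S, hh_some_eq h S hS]
      · rfl
      · rw [jhat_manin x S hS, ← manin_x hp2 h.1 hx, addX_short, Affine.slope_of_X_ne hxne,
          negY_eq_neg ha₁ ha₃, hq, sub_neg_eq_add]

end Manin

end Fermat.Agent.Lib.Frob.A2.H230
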