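import Fermat.Agent.Lib.Frob.A2.H230.OddPts
import Fermat.Agent.S52.H311.Height
import Fermat.Agent.S52.H621.RatDegComp

/-!
# The degree height on the odd points (helper230)

Glue between helper311's exact parallelogram law (`H311.hgt_add_sub`), helper621's `ratDeg`
and the odd points of `OddPts.lean`.

* `hgt_some_eq`   : for an odd point `(x, y)` with `x = jhat S`, the height is `ratDeg S`.
* `hgt_parallelogram` : parallelogram law on the odd points.
* `hgt_frob`      : `h (Φ P) = q · h P`.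
-/

set_option linter.unusedSectionVars false

open WeierstrassCurve Polynomial
open scoped Polynomial.Bivariate WeierstrassCurve.Affine

namespace Fermat.Agent.Lib.Frob.A2.H230

open Fermat.Agent.Lib.FrobRel.H230 Fermat.Agent.S52.H311 Fermat.Agent.S52.H621

universe u

variable {F : Type u} [Field F] {W : WeierstrassCurve F} [DecidableEq (KK W)]

/-- The height on points of `W` over its function field. -/
noncomputable def hh (P : (W⁄(KK W)).Point) : ℕ := hgt (jj W) P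

lemma isXRep_of_jhat {x y : KK W} (h : (W⁄(KK W)).Nonsingular x y) (S : RatFunc F)
    (hx : x = jhat W S) : IsXRep (jj W) (Affine.Point.some x y h) S.num S.denom := by
  refine isXRep_some h (RatFunc.isCoprime_num_denom S) (jj_denom_ne_zero W S) ?_
  rw [hx, jhat_eq_num_div_denom, div_mul_cancel₀ _ (jj_denom_ne_zero W S)]

lemma hh_some_eq {x y : KK W} (h : (W⁄(KK W)).Nonsingular x y) (S : RatFunc F)
    (hx : x = jhat W S) : hh (Affine.Point.some x y h) = ratDeg S := by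
  rw [hh, hgt_eq (jj_injective W) (isXRep_of_jhat h S hx)]
  rfl

lemma hh_zero : hh (0 : (W⁄(KK W)).Point) = 0 := hgt_zero (jj_injective W)

lemma exists_isXRep_of_mem (ha₁ : W.a₁ = 0) (ha₃ : W.a₃ = 0) (h2 : (2 : F) ≠ 0)
    {P : (W⁄(KK W)).Point} (hP : P ∈ oddPts W) : ∃ a b, IsXRep (jj W) P a b := by
  rcases P with _ | ⟨x, y, h⟩
  · exact ⟨1, 0, isXRep_zero⟩
  · obtain ⟨S, hS⟩ := exists_ratFunc_of_mem_oddPts ha₁ ha₃ h2 hP
    exact ⟨_, _, isXRep_of_jhat h S hS⟩

/-- **Parallelogram law** for the height on the odd points. -/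
theorem hh_parallelogram (ha₁ : W.a₁ = 0) (ha₃ : W.a₃ = 0) (h2 : (2 : F) ≠ 0) (hΔ : W.Δ ≠ 0)
    {P Q : (W⁄(KK W)).Point} (hP : P ∈ oddPts W) (hQ : Q ∈ oddPts W) :
    hh (P + Q) + hh (P - Q) = 2 * hh P + 2 * hh Q := by
  have : W.IsElliptic := ⟨isUnit_iff_ne_zero.mpr hΔ⟩
  exact hgt_add_sub (W := W) (jj_injective W)
    (exists_isXRep_of_mem ha₁ ha₃ h2 hP) (exists_isXRep_of_mem ha₁ ha₃ h2 hQ)
    (exists_isXRep_of_mem ha₁ ha₃ h2 ((oddPts W).add_mem hP hQ))
    (exists_isXRep_of_mem ha₁ ha₃ h2 ((oddPts W).sub_mem hP hQ))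

lemma hh_eq_zero_iff_isConst (ha₁ : W.a₁ = 0) (ha₃ : W.a₃ = 0) (h2 : (2 : F) ≠ 0)
    {P : (W⁄(KK W)).Point} (hP : P ∈ oddPts W) (h0 : hh P = 0) :
    P = 0 ∨ ∃ (x y : KK W) (h : (W⁄(KK W)).Nonsingular x y),
      P = Affine.Point.some x y h ∧ IsAlgebraic F x := by
  rcases P with _ | ⟨x, y, h⟩
  · exact Or.inl rfl
  · obtain ⟨S, hS⟩ := exists_ratFunc_of_mem_oddPts ha₁ ha₃ h2 hP
    rw [hh_some_eq h S hS, ratDeg_eq_zero_iff] at h0
    obtain ⟨c, rfl⟩ := h0
    refine Or.inr ⟨x, y, h, rfl, ?_⟩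
    rw [hS, jhat_C]
    exact isAlgebraic_algebraMap c

end Fermat.Agent.Lib.Frob.A2.H230
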