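import Fermat.Agent.Lib.Frob.A2.H230.FrobHeight
import Fermat.Agent.S52.H127.QuadForm
import Fermat.Agent.Lib.Frob.A2.H240.ShortNF

/-!
# Piece A2 of row S52: the Hasse–Weil Frobenius relation over `𝔽_ℓ` (helper230 assembly)

`frobRelationFin : FrobRelationFin` — for every prime `ℓ ≥ 5`, every Weierstrass curve `E` over
`ZMod ℓ` with `Δ ≠ 0`, every field `k` over `ZMod ℓ` and every `P : (E⁄k).Point`:
`Φ (Φ P) - a_ℓ • Φ P + ℓ • P = 0`.

Assembly of: helper311 (exact parallelogram law), helper621 (Manin count, degree of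
compositions), helper127 (quadratic form algebra), helper240 (short Weierstrass form),
helper230 (odd points, generic point ⇒ all points).
-/

open WeierstrassCurve Polynomial
open scoped Polynomial.Bivariate WeierstrassCurve.Affine

namespace Fermat.Agent.Lib.Frob.A2.H230

open Fermat.Agent.S52.H311 Fermat.Agent.S52.H621 Fermat.Agent.S52.H127

/-- The Frobenius relation for the literal short Weierstrass curves, in terms of `frobPsi`. -/
theorem frobPsi_shortW_eq_zero (ℓ : ℕ) [Fact ℓ.Prime] (hℓ2 : ℓ ≠ 2) (A B : ZMod ℓ)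
    (hΔ : (shortW ℓ A B).Δ ≠ 0) (k : Type) [Field k] [Algebra (ZMod ℓ) k] [DecidableEq k]
    (P : ((shortW ℓ A B)⁄k).Point) :
    Fermat.Agent.Lib.FrobRel.H230.frobPsi (shortW ℓ A B) k
      (shortW ℓ A B).traceOfFrobenius P = 0 := by
  classical
  have h2 : (2 : ZMod ℓ) ≠ 0 := two_ne_zero_zmod ℓ hℓ2
  have hΔF : ((shortW ℓ A B)⁄(ZMod ℓ)).Δ ≠ 0 :=
    Fermat.Agent.Lib.FrobRel.H230.baseChange_Δ_ne_zero' _ hΔ _
  have hpar : IsParNat (fun P : oddPts (shortW ℓ A B) => hh P.1) :=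
    fun P Q => hh_parallelogram rfl rfl h2 hΔ P.2 Q.2
  have key := IsParNat.frobenius_relation hpar
    (((Fermat.Agent.Lib.FrobRel.H230.frobPt (shortW ℓ A B) (KK (shortW ℓ A B))).comp
      (oddPts (shortW ℓ A B)).subtype).codRestrict (oddPts (shortW ℓ A B))
      (fun P => frobPt_mem_oddPts P.2))
    ℓ (ratDeg (maninFun ℓ A B))
    (fun Q => by
      show hh (Fermat.Agent.Lib.FrobRel.H230.frobPt (shortW ℓ A B) (KK (shortW ℓ A B)) Q.1)
        = ℓ * hh Q.1
      rw [hh_frob rfl rfl h2 Q.2, ZMod.card])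
    (fun Q => hh_frob_sub hℓ2 hΔ Q.2)
    ⟨Fermat.Agent.Lib.FrobRel.H230.genericPoint (shortW ℓ A B) (ZMod ℓ) hΔF,
      generic_mem_oddPts hΔF⟩
  have hconst := hh_eq_zero_iff_isConst rfl rfl h2 (SetLike.coe_mem _) key
  have htr : (ℓ : ℤ) + 1 - (ratDeg (maninFun ℓ A B) : ℤ) = (shortW ℓ A B).traceOfFrobenius := by
    rw [ratDeg_maninFun_eq_trace ℓ hℓ2 A B hΔ]
    ring
  refine Fermat.Agent.Lib.FrobRel.H230.frobPsi_eq_zero (shortW ℓ A B) hΔ
    (Fermat.Agent.Lib.FrobRel.H230.generic_nonsingular (shortW ℓ A B) (ZMod ℓ) hΔF)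
    (Fermat.Agent.Lib.FrobRel.H230.gx_transcendental (shortW ℓ A B) (ZMod ℓ))
    (shortW ℓ A B).traceOfFrobenius ?_ P
  rw [← htr]
  convert hconst using 1
  rw [Fermat.Agent.Lib.FrobRel.H230.frobPsi_apply, ZMod.card]
  simp only [AddSubgroup.coe_add, AddSubgroup.coe_sub, AddSubgroup.coe_zsmul,
    AddSubgroup.coe_nsmul, natCast_zsmul]
  rfl

/-- Piece A2 for the literal short Weierstrass curves `⟨0, 0, 0, A, B⟩`. -/
theorem frobRelationFinShortLit : Fermat.Agent.Lib.Frob.A2.H240.FrobRelationFinShortLit := by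
  intro ℓ _ hℓ A B hΔ k _ _ _ P
  have hℓ2 : ℓ ≠ 2 := by omega
  have h := frobPsi_shortW_eq_zero ℓ hℓ2 A B hΔ k P
  have e := Fermat.Agent.Lib.FrobRel.H230.frobPsi_apply (shortW ℓ A B) k
    (shortW ℓ A B).traceOfFrobenius P
  rw [h, ZMod.card] at e
  exact e.symm

/-- **Piece A2** (frozen interface `FrobRelationFin` of `Lib/Frob/Interfaces.lean`). -/
theorem frobRelationFin_H230 : Fermat.Agent.Lib.Frob.FrobRelationFin :=
  Fermat.Agent.Lib.Frob.A2.H240.frobRelationFin_of_shortLit frobRelationFinShortLit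

end Fermat.Agent.Lib.Frob.A2.H230
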