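import Fermat.Agent.Lib.FrobRel.H230Frob

/-!
# The odd points of a short Weierstrass curve over its function field (helper230)

`W` a Weierstrass curve over a field `F` with `a₁ = a₃ = 0`, `2 ≠ 0`, `Δ ≠ 0`;
`K = FF W F` its function field, `(gx, gy)` the generic point.

* `tau` : the `F`-algebra endomorphism of `K` with `gx ↦ gx`, `gy ↦ -gy`.
* `oddPts` : the subgroup `{P | Point.map tau P = -P}` of `W(K)`; it contains the generic point
  and is stable under every endomorphism commuting with `Point.map`.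
* `exists_ratFunc_of_mem_oddPts` : the `x`-coordinate of an odd point is in the image of
  `RatFunc F` (`jhat`).
-/

open WeierstrassCurve Polynomial
open scoped Polynomial.Bivariate WeierstrassCurve.Affine

namespace Fermat.Agent.Lib.Frob.A2.H230

open Fermat.Agent.Lib.FrobRel.H230

universe u

variable {F : Type u} [Field F] (W : WeierstrassCurve F)

/-- The function field of `W` over its field of definition. -/
abbrev KK : Type u := FF W F

/-- `F[X] → K`, `X ↦ gx`. -/
noncomputable def jj : F[X] →ₐ[F] KK W := IsScalarTower.toAlgHom F F[X] (KK W)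

lemma jj_apply (p : F[X]) : jj W p = algebraMap F[X] (KK W) p := rfl

lemma jj_X : jj W X = gx W F := (gx_eq_algebraMap_X W F).symm

lemma jj_injective : Function.Injective (jj W) := algebraMap_poly_FF_injective W F

lemma jj_eq_aeval (p : F[X]) : jj W p = Polynomial.aeval (gx W F) p := by
  have : jj W = Polynomial.aeval (gx W F) := by
    apply Polynomial.algHom_ext
    rw [jj_X, aeval_X]
  rw [this]

/-- `RatFunc F → K`, `X ↦ gx`. -/
noncomputable def jhat : RatFunc F →ₐ[F] KK W :=
  IsFractionRing.liftAlgHom (g := jj W) (jj_injective W)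

lemma jhat_algebraMap (p : F[X]) : jhat W (algebraMap F[X] (RatFunc F) p) = jj W p := by
  rw [jhat, IsFractionRing.liftAlgHom_apply, IsFractionRing.lift_algebraMap]
  rfl

lemma jhat_injective : Function.Injective (jhat W) := (jhat W).injective

lemma jhat_div (p r : F[X]) :
    jhat W (algebraMap F[X] (RatFunc F) p / algebraMap F[X] (RatFunc F) r)
      = jj W p / jj W r := by
  rw [map_div₀, jhat_algebraMap, jhat_algebraMap]

lemma jhat_eq_num_div_denom (S : RatFunc F) : jhat W S = jj W S.num / jj W S.denom := by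
  conv_lhs => rw [← RatFunc.num_div_denom S]
  exact jhat_div W _ _

lemma jj_denom_ne_zero (S : RatFunc F) : jj W S.denom ≠ 0 :=
  (map_ne_zero_iff _ (jj_injective W)).mpr S.denom_ne_zero

lemma jhat_C (c : F) : jhat W (RatFunc.C c) = algebraMap F (KK W) c := by
  rw [← RatFunc.algebraMap_eq_C]
  exact (jhat W).commutes c

/-! ### Every element of the function field is `(p + q·y) / r` -/

/-- Every nonzero element of the coordinate ring divides a nonzero polynomial in `X`. -/
lemma exists_mul_eq_algebraMap (w : CR W F) (hw0 : w ≠ 0) :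
    ∃ (wbar : CR W F) (N : F[X]), N ≠ 0 ∧ algebraMap F[X] (CR W F) N = w * wbar := by
  obtain ⟨p', q', rfl⟩ := Affine.CoordinateRing.exists_smul_basis_eq w
  have : Module.Finite F[X] (CR W F) :=
    Module.Finite.of_basis (Affine.CoordinateRing.basis (W⁄F))
  have hN : Algebra.norm F[X] (p' • (1 : CR W F) + q' • Affine.CoordinateRing.mk (W⁄F) Y) ≠ 0 :=
    Algebra.norm_ne_zero_iff.mpr hw0
  have hcoe := Affine.CoordinateRing.coe_norm_smul_basis (W' := W⁄F) p' q'
  have hfac : Affine.CoordinateRing.mk (W⁄F) (C p' + C q' * Y)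
      = p' • (1 : CR W F) + q' • Affine.CoordinateRing.mk (W⁄F) Y := by
    simp only [Affine.CoordinateRing.smul, map_add, map_mul, mul_one]
  refine ⟨Affine.CoordinateRing.mk (W⁄F)
    (C p' + C q' * (-(Y : F[X][Y]) - C (C (W⁄F).a₁ * X + C (W⁄F).a₃))), _, hN, ?_⟩
  have h1 : algebraMap F[X] (CR W F) (Algebra.norm F[X]
      (p' • (1 : CR W F) + q' • Affine.CoordinateRing.mk (W⁄F) Y))
      = Affine.CoordinateRing.mk (W⁄F) ((C p' + C q' * X) *
            (C p' + C q' * (-(Y : F[X][Y]) - C (C (W⁄F).a₁ * X + C (W⁄F).a₃)))) := hcoe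
  rw [h1, map_mul, hfac]

lemma jj_eq_algebraMap_CR (p : F[X]) :
    jj W p = algebraMap (CR W F) (KK W) (algebraMap F[X] (CR W F) p) := by
  rw [jj_apply, IsScalarTower.algebraMap_apply F[X] (CR W F) (KK W)]

lemma jj_add_mul_gy (p q : F[X]) : jj W p + jj W q * gy W F
    = algebraMap (CR W F) (KK W) (p • (1 : CR W F) + q • Affine.CoordinateRing.mk (W⁄F) Y) := by
  rw [map_add, Algebra.smul_def, Algebra.smul_def, mul_one, map_mul, jj_eq_algebraMap_CR,
    jj_eq_algebraMap_CR]
  rfl

lemma exists_rep (u : KK W) : ∃ p q r : F[X], r ≠ 0 ∧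
    u = (jj W p + jj W q * gy W F) / jj W r := by
  obtain ⟨z, w, hw, rfl⟩ := IsFractionRing.div_surjective (A := CR W F) u
  have hw0 : w ≠ 0 := nonZeroDivisors.ne_zero hw
  obtain ⟨wbar, N, hN, hprod⟩ := exists_mul_eq_algebraMap W w hw0
  obtain ⟨p, q, hpq⟩ := Affine.CoordinateRing.exists_smul_basis_eq (z * wbar)
  refine ⟨p, q, N, hN, ?_⟩
  have hjN : jj W N ≠ 0 := (map_ne_zero_iff _ (jj_injective W)).mpr hN
  have hwK : algebraMap (CR W F) (KK W) w ≠ 0 :=
    (map_ne_zero_iff _ (IsFractionRing.injective (CR W F) (KK W))).mpr hw0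
  rw [div_eq_div_iff hwK hjN, jj_eq_algebraMap_CR, jj_add_mul_gy, hpq, hprod, ← map_mul,
    ← map_mul]
  congr 1
  ring

/-! ### The hyperelliptic involution and the odd points -/

/-- The `F`-algebra endomorphism of the function field sending the generic point `P₀` to
`-P₀`. -/
noncomputable def tau : KK W →ₐ[F] KK W :=
  sigma F ((Affine.equation_neg (gx W F) (gy W F)).mpr (generic_equation W F))
    (gx_transcendental W F)

lemma tau_gx : tau W (gx W F) = gx W F := sigma_gx F _ _

lemma tau_gy : tau W (gy W F) = (W⁄(KK W)).negY (gx W F) (gy W F) := sigma_gy F _ _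

lemma tau_jj (p : F[X]) : tau W (jj W p) = jj W p := by
  have : (tau W).comp (jj W) = jj W := by
    apply Polynomial.algHom_ext
    rw [AlgHom.comp_apply, jj_X, tau_gx]
  exact congrArg (fun f => f p) this

section Short

variable {W}
variable (ha₁ : W.a₁ = 0) (ha₃ : W.a₃ = 0)

include ha₁ ha₃ in
lemma negY_eq_neg (x y : KK W) : (W⁄(KK W)).negY x y = -y := by
  have h1 : (W⁄(KK W)).a₁ = 0 := by
    show algebraMap F (KK W) W.a₁ = 0
    rw [ha₁, map_zero]
  have h3 : (W⁄(KK W)).a₃ = 0 := by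
    show algebraMap F (KK W) W.a₃ = 0
    rw [ha₃, map_zero]
  rw [Affine.negY, h1, h3]
  ring

include ha₁ ha₃ in
lemma tau_gy_short : tau W (gy W F) = -gy W F := by
  rw [tau_gy, negY_eq_neg ha₁ ha₃]

lemma gy_ne_zero : gy W F ≠ 0 := by
  intro h0
  -- then `gx` is a root of the cubic, hence algebraic
  have heq := generic_equation W F
  rw [Affine.equation_iff, h0] at heq
  apply gx_transcendental W F
  refine ⟨X ^ 3 + C (W⁄F).a₂ * X ^ 2 + C (W⁄F).a₄ * X + C (W⁄F).a₆, ?_, ?_⟩
  · intro h
    have := congrArg (fun p => p.coeff 3) h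
    simp [coeff_X_pow] at this
  · simp only [map_add, map_mul, map_pow, aeval_X, aeval_C]
    rw [baseChange_a₂ (k := F), baseChange_a₄ (k := F), baseChange_a₆ (k := F)] at heq
    simpa using heq.symm

include ha₁ ha₃ in
/-- Elements of the function field fixed by `tau` are rational functions of `gx`. -/
lemma exists_ratFunc_of_tau_fixed (h2 : (2 : F) ≠ 0) (u : KK W)
    (hu : tau W u = u) : ∃ S : RatFunc F, u = jhat W S := by
  obtain ⟨p, q, r, hr, rfl⟩ := exists_rep W u
  have hjr : jj W r ≠ 0 := (map_ne_zero_iff _ (jj_injective W)).mpr hr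
  rw [map_div₀, map_add, map_mul, tau_jj, tau_jj, tau_jj, tau_gy_short ha₁ ha₃,
    div_left_inj' hjr] at hu
  have h2K : (2 : KK W) ≠ 0 := by
    rw [← map_ofNat (algebraMap F (KK W)) 2]
    exact (map_ne_zero_iff _ (algebraMap F (KK W)).injective).mpr h2
  have hq : jj W q = 0 := by
    have h3 : 2 * (jj W q * gy W F) = 0 := by linear_combination -hu
    rcases mul_eq_zero.mp h3 with h4 | h4
    · exact absurd h4 h2K
    · exact (mul_eq_zero.mp h4).resolve_right gy_ne_zero
  refine ⟨algebraMap F[X] (RatFunc F) p / algebraMap F[X] (RatFunc F) r, ?_⟩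
  rw [jhat_div, hq, zero_mul, add_zero]

end Short

section Odd

variable [DecidableEq (KK W)]

/-- `Point.map tau`. -/
noncomputable def tauPt : (W⁄(KK W)).Point →+ (W⁄(KK W)).Point :=
  Affine.Point.map (W' := W) (tau W)

/-- The subgroup of odd points `{P | τ P = -P}`. -/
noncomputable def oddPts : AddSubgroup (W⁄(KK W)).Point :=
  (tauPt W + AddMonoidHom.id _).ker

variable {W}

lemma mem_oddPts {P : (W⁄(KK W)).Point} : P ∈ oddPts W ↔ tauPt W P = -P := by
  rw [oddPts, AddMonoidHom.mem_ker, AddMonoidHom.add_apply, AddMonoidHom.id_apply,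
    add_eq_zero_iff_eq_neg]

lemma generic_mem_oddPts (hΔ : (W⁄F).Δ ≠ 0) : genericPoint W F hΔ ∈ oddPts W := by
  rw [mem_oddPts, tauPt, tau]
  rw [map_sigma_genericPoint F hΔ
    ((Affine.nonsingular_neg (gx W F) (gy W F)).mpr (generic_nonsingular W F hΔ))
    (gx_transcendental W F)]
  rfl

lemma map_mem_oddPts (φ : (W⁄(KK W)).Point →+ (W⁄(KK W)).Point)
    (hφ : ∀ P, φ (tauPt W P) = tauPt W (φ P)) {P : (W⁄(KK W)).Point} (hP : P ∈ oddPts W) :
    φ P ∈ oddPts W := by
  rw [mem_oddPts] at hP ⊢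
  rw [← hφ, hP, map_neg]

lemma tau_x_of_mem_oddPts {x y : KK W} {h : (W⁄(KK W)).Nonsingular x y}
    (hP : Affine.Point.some x y h ∈ oddPts W) : tau W x = x := by
  rw [mem_oddPts, tauPt, Affine.Point.map_some, Affine.Point.neg_some] at hP
  exact ((Affine.Point.some.injEq ..).mp hP).1

lemma exists_ratFunc_of_mem_oddPts (ha₁ : W.a₁ = 0) (ha₃ : W.a₃ = 0) (h2 : (2 : F) ≠ 0)
    {x y : KK W} {h : (W⁄(KK W)).Nonsingular x y}
    (hP : Affine.Point.some x y h ∈ oddPts W) : ∃ S : RatFunc F, x = jhat W S :=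
  exists_ratFunc_of_tau_fixed ha₁ ha₃ h2 x (tau_x_of_mem_oddPts hP)

end Odd

end Fermat.Agent.Lib.Frob.A2.H230
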